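import Mathlib
import Fermat.Agent.S28.H988.Degree
import Fermat.Agent.S28.H88.Degree
import Fermat.Agent.S28.H807.Analytic
import Fermat.Agent.S28.H25.Theta
import Fermat.Agent.S28.H626.Upper

/-!
# S37 / E-a (helper88): the degree of the second degeneracy map

`k` a field in which the primes dividing `N ℓ` are invertible, `ℓ ∤ N` prime.
`F_M = k(j(q^d) : d ∣ M) ⊆ k((q))` (`modularFunctionFieldFullC k M`), `V = (q ↦ q^ℓ)`.

* `K0 k N ℓ := V(F_N)`, an intermediate field of `k((q))/k` contained in `F_{Nℓ}`;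
* `relfinrank_K0` : `[F_{Nℓ} : V(F_N)] = ℓ + 1`.
-/

set_option autoImplicit false

noncomputable section

namespace Fermat.Agent.S37.H88

open ModularCurve Polynomial IntermediateField Fermat.Agent.S28

variable (k : Type*) [Field k]

/-- `V(F_N)`, the image of the function field of level `N` under `q ↦ q^ℓ`. -/
def K0 (N ℓ : ℕ) [NeZero ℓ] : IntermediateField k (LaurentSeries k) :=
  (modularFunctionFieldFullC k N).map (qExpandAlgHomC k ℓ)

/-- `k(j(q^ℓ)) = V(k(j))`. -/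
abbrev J1 (ℓ : ℕ) [NeZero ℓ] : IntermediateField k (LaurentSeries k) :=
  (jField k).map (qExpandAlgHomC k ℓ)

theorem jd_mem_fullC {d M : ℕ} [NeZero d] (hd : d ∣ M) :
    qExpand k d (jqModC k) ∈ modularFunctionFieldFullC k M :=
  subset_adjoin k _ ⟨d, ‹_›, hd, rfl⟩

theorem jq_mem_fullC (M : ℕ) : jqModC k ∈ modularFunctionFieldFullC k M := by
  have h := jd_mem_fullC k (d := 1) (one_dvd M)
  rwa [qExpand_one_apply] at h

theorem fullC_mono {N M : ℕ} (h : N ∣ M) :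
    modularFunctionFieldFullC k N ≤ modularFunctionFieldFullC k M := by
  rw [modularFunctionFieldFullC, adjoin_le_iff]
  rintro _ ⟨d, hd0, hd, rfl⟩
  exact jd_mem_fullC k (hd.trans h)

theorem jField_le_fullC (M : ℕ) : jField k ≤ modularFunctionFieldFullC k M := by
  rw [jField, adjoin_le_iff]
  rintro x hx
  rw [Set.mem_singleton_iff] at hx
  subst hx
  exact jq_mem_fullC k M

theorem K0_le (N ℓ : ℕ) [NeZero ℓ] : K0 k N ℓ ≤ modularFunctionFieldFullC k (N * ℓ) := by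
  rw [K0, modularFunctionFieldFullC, adjoin_map, adjoin_le_iff]
  rintro _ ⟨_, ⟨d, hd0, hd, rfl⟩, rfl⟩
  have : NeZero (ℓ * d) := ⟨Nat.mul_ne_zero (NeZero.ne ℓ) (NeZero.ne d)⟩
  have h1 : qExpandAlgHomC k ℓ (qExpand k d (jqModC k)) = qExpand k (ℓ * d) (jqModC k) := by
    rw [qExpandAlgHomC_apply, qExpand_qExpand]
  rw [h1]
  exact jd_mem_fullC k (by rw [mul_comm]; exact Nat.mul_dvd_mul_right hd ℓ)

theorem J1_le_K0 (N ℓ : ℕ) [NeZero ℓ] : J1 k ℓ ≤ K0 k N ℓ :=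
  IntermediateField.map_mono _ (jField_le_fullC k N)

section Degree

variable (N ℓ : ℕ) [NeZero ℓ]

theorem J1_le_fullC_prime : J1 k ℓ ≤ modularFunctionFieldFullC k ℓ := by
  have h := (J1_le_K0 k 1 ℓ).trans (K0_le k 1 ℓ)
  rwa [one_mul] at h

/-- `k(j, j_ℓ) = k(j_ℓ)(j)`. -/
theorem extendScalars_fullC_prime (hℓ : ℓ.Prime) :
    extendScalars (J1_le_fullC_prime k ℓ) = adjoin (J1 k ℓ) {jqModC k} := by
  apply IntermediateField.restrictScalars_injective k
  rw [IntermediateField.restrictScalars_adjoin_eq_sup]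
  apply le_antisymm
  · show modularFunctionFieldFullC k ℓ ≤ _
    rw [modularFunctionFieldFullC, adjoin_le_iff]
    rintro _ ⟨d, hd0, hd, rfl⟩
    rcases (Nat.dvd_prime hℓ).mp hd with rfl | rfl
    · rw [qExpand_one_apply]
      exact (le_sup_right : adjoin k {jqModC k} ≤ _) (mem_adjoin_simple_self k _)
    · exact (le_sup_left : J1 k d ≤ _) (h88_jp_mem_map k d)
  · refine sup_le (J1_le_fullC_prime k ℓ) ?_
    rw [adjoin_le_iff]
    rintro x hx
    rw [Set.mem_singleton_iff] at hx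
    subst hx
    exact jq_mem_fullC k ℓ

/-- `[k(j, j_ℓ) : k(j_ℓ)] = ℓ + 1`. -/
theorem relfinrank_J1_fullC_prime (hℓ : ℓ.Prime) (hℓk : (ℓ : k) ≠ 0) :
    (J1 k ℓ).relfinrank (modularFunctionFieldFullC k ℓ) = ℓ + 1 := by
  obtain ⟨Φ⟩ := H807.nonempty_modPolyData ℓ hℓ
  obtain ⟨W⟩ := H807.nonempty_unitPolyData ℓ hℓ
  have hdeg := h88_natDegree_minpoly_j k ℓ hℓk hℓ.one_lt Φ W H25.theta_identity
  have hint := h88_isIntegral_j_K1 k ℓ Φ
  rw [relfinrank_eq_finrank_of_le (J1_le_fullC_prime k ℓ), extendScalars_fullC_prime k ℓ hℓ,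
    adjoin.finrank hint, hdeg]

/-- **Degree of the second degeneracy map**: `[F_{Nℓ} : V(F_N)] = ℓ + 1` for `ℓ ∤ N`. -/
theorem relfinrank_K0 (hN : N ≠ 0) (hℓ : ℓ.Prime) (hℓN : ¬ ℓ ∣ N)
    (hchar : ∀ r : ℕ, r.Prime → r ∣ N * ℓ → (r : k) ≠ 0) :
    (K0 k N ℓ).relfinrank (modularFunctionFieldFullC k (N * ℓ)) = ℓ + 1 := by
  have hNℓ : N * ℓ ≠ 0 := Nat.mul_ne_zero hN hℓ.ne_zero
  have hℓk : (ℓ : k) ≠ 0 := hchar ℓ hℓ (dvd_mul_left ℓ N)
  have a1 : (jField k).relfinrank (modularFunctionFieldFullC k N) = dedekindPsi N :=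
    H988.relfinrank_jField_full_eq k N hN
      (fun r hr hrN => hchar r hr (hrN.trans (dvd_mul_right N ℓ)))
  have a2 : (jField k).relfinrank (modularFunctionFieldFullC k (N * ℓ)) = dedekindPsi (N * ℓ) :=
    H988.relfinrank_jField_full_eq k (N * ℓ) hNℓ hchar
  have a3 : (jField k).relfinrank (modularFunctionFieldFullC k ℓ) = dedekindPsi ℓ :=
    H988.relfinrank_jField_full_eq k ℓ hℓ.ne_zero
      (fun r hr hrℓ => hchar r hr (hrℓ.trans (dvd_mul_left ℓ N)))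
  have p1 : dedekindPsi (N * ℓ) = (ℓ + 1) * dedekindPsi N :=
    H626.psi_mul_prime_of_not_dvd hN hℓ hℓN
  have p2 : dedekindPsi ℓ = ℓ + 1 := by
    have h := H626.psi_mul_prime_of_not_dvd (N := 1) one_ne_zero hℓ
      (fun h => hℓ.one_lt.ne' (Nat.dvd_one.mp h))
    rwa [one_mul, dedekindPsi_one, mul_one] at h
  have b1 : (J1 k ℓ).relfinrank (K0 k N ℓ) = dedekindPsi N := by
    rw [K0, relfinrank_map_map, a1]
  have b2 := relfinrank_J1_fullC_prime k ℓ hℓ hℓk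
  have c1 := relfinrank_mul_relfinrank (jField_le_fullC k ℓ) (fullC_mono k (dvd_mul_left ℓ N))
  have c2 := relfinrank_mul_relfinrank (J1_le_fullC_prime k ℓ) (fullC_mono k (dvd_mul_left ℓ N))
  have c3 := relfinrank_mul_relfinrank (J1_le_K0 k N ℓ) (K0_le k N ℓ)
  rw [a3, a2, p2] at c1
  rw [b2, c1] at c2
  rw [b1, ← c2, p1] at c3
  have hpos : 0 < dedekindPsi N := H988.dedekindPsi_pos N hN
  rw [mul_comm (ℓ + 1)] at c3
  exact Nat.eq_of_mul_eq_mul_left hpos c3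

end Degree

end Fermat.Agent.S37.H88
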