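import Mathlib
import Fermat.Agent.S37.H88.ALDegree
import Fermat.Agent.S37.H340.KronTwist

/-!
# S37 / E-a (helper88): the `ℓ + 1` embeddings of `F_{Nℓ}` over `V(F_N)`

`k` a field with a primitive `ℓ`-th root of unity `ζ`, primes dividing `N ℓ` invertible, `ℓ ∤ N`.
The `ℓ` twists `q ↦ ζ^b q` restrict to `V(F_N)`-embeddings of `F_{Nℓ}` into `k((q))`; there is
exactly one more, `tauInf`, and it satisfies `tauInf (f) = f(q^{ℓ²})` for `f ∈ F_N`.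
-/

set_option autoImplicit false
set_option linter.unusedSectionVars false

noncomputable section

namespace Fermat.Agent.S37.H88

open ModularCurve Polynomial IntermediateField Fermat.Agent.S28 Fermat.Agent.S37

section Twist

variable (k : Type*) [Field k]

/-- the generators `j(q^d)` -/
abbrev gd (d : ℕ) [NeZero d] : LaurentSeries k := qExpand k d (jqModC k)

theorem gd_coeff_neg (d : ℕ) [NeZero d] : (gd k d).coeff (-(d : ℤ)) = 1 := by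
  have h := qExpand_coeff_mul (R := k) d (jqModC k) (-1)
  rw [mul_neg, mul_one] at h
  rw [gd, h, coeff_jqModC_neg_one]

variable {k} {ℓ : ℕ} [NeZero ℓ] {ζ : k}

theorem tw_gd_coeff (b : ℕ) (d : ℕ) [NeZero d] :
    (H340.tw ℓ (ζ ^ b) (gd k d)).coeff (-(d : ℤ)) =
      (ζ ^ ((-(d : ℤ)) % (ℓ : ℤ)).toNat) ^ b := by
  rw [H340.tw_coeff, gd_coeff_neg, mul_one, H340.zpw, ← pow_mul, ← pow_mul, mul_comm]

theorem toNat_emod_coprime (hℓ : ℓ.Prime) {d : ℕ} (hd : ¬ ℓ ∣ d) :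
    Nat.Coprime ((-(d : ℤ)) % (ℓ : ℤ)).toNat ℓ := by
  have hℓpos : (0 : ℤ) < ℓ := by exact_mod_cast hℓ.pos
  have h0 : 0 ≤ (-(d : ℤ)) % (ℓ : ℤ) := Int.emod_nonneg _ hℓpos.ne'
  rw [Nat.coprime_comm, Nat.Prime.coprime_iff_not_dvd hℓ]
  intro h
  have h1 : (ℓ : ℤ) ∣ (((-(d : ℤ)) % (ℓ : ℤ)).toNat : ℤ) := by exact_mod_cast h
  rw [Int.toNat_of_nonneg h0] at h1
  have h2 : (ℓ : ℤ) ∣ -(d : ℤ) := (Int.dvd_iff_emod_eq_zero ..).mpr
    (Int.emod_emod_of_dvd _ (dvd_refl _) ▸ (Int.dvd_iff_emod_eq_zero ..).mp h1)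
  rw [Int.dvd_neg] at h2
  exact hd (by exact_mod_cast h2)

/-- the twists of `j(q^d)`, `ℓ ∤ d`, are pairwise distinct -/
theorem tw_gd_injective (hζ : IsPrimitiveRoot ζ ℓ) (hℓ : ℓ.Prime) {d : ℕ} [NeZero d]
    (hd : ¬ ℓ ∣ d) :
    Function.Injective (fun b : Fin ℓ => H340.tw ℓ (ζ ^ (b : ℕ)) (gd k d)) := by
  intro b b' h
  have h1 := congrArg (fun f : LaurentSeries k => f.coeff (-(d : ℤ))) h
  simp only [tw_gd_coeff] at h1
  have hprim := hζ.pow_of_coprime _ (toNat_emod_coprime hℓ hd)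
  exact Fin.ext (hprim.pow_inj b.2 b'.2 h1)

/-- `j(q^{dℓ²})` is not a twist of `j(q^d)` -/
theorem qExpand_qExpand_gd_ne_tw (hζ : IsPrimitiveRoot ζ ℓ) (hℓ : ℓ.Prime) {d : ℕ} [NeZero d]
    (hd : ¬ ℓ ∣ d) (b : ℕ) :
    qExpand k ℓ (qExpand k ℓ (gd k d)) ≠ H340.tw ℓ (ζ ^ b) (gd k d) := by
  intro h
  have h1 := congrArg (fun f : LaurentSeries k => f.coeff (-(d : ℤ))) h
  simp only [tw_gd_coeff] at h1
  rw [qExpand_coeff_of_not_dvd] at h1
  · exact (pow_ne_zero _ (pow_ne_zero _ (hζ.ne_zero hℓ.ne_zero))) h1.symm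
  · rw [Int.dvd_neg]
    exact fun h2 => hd (by exact_mod_cast h2)

end Twist

section Fields

variable (k : Type*) [Field k] (N ℓ : ℕ) [NeZero ℓ]

/-- `F_{Nℓ}` as an extension of `V(F_N)`. -/
abbrev E1 : IntermediateField (K0 k N ℓ) (LaurentSeries k) := extendScalars (K0_le k N ℓ)

theorem mem_E1 {x : LaurentSeries k} :
    x ∈ E1 k N ℓ ↔ x ∈ modularFunctionFieldFullC k (N * ℓ) := Iff.rfl

theorem tw_K0 (ζ : k) {x : LaurentSeries k} (hx : x ∈ K0 k N ℓ) : H340.tw ℓ ζ x = x := by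
  obtain ⟨y, -, rfl⟩ := hx
  exact H340.tw_qExpand ζ y

/-- the twist `q ↦ ζ q` as a `V(F_N)`-embedding of `F_{Nℓ}` -/
def twE (ζ : k) (hζ : ζ ^ ℓ = 1) : E1 k N ℓ →ₐ[K0 k N ℓ] LaurentSeries k :=
  { (H340.twHom ℓ ζ hζ).comp (algebraMap (E1 k N ℓ) (LaurentSeries k)) with
    commutes' := fun c => tw_K0 k N ℓ ζ c.2 }

@[simp]
theorem twE_apply (ζ : k) (hζ : ζ ^ ℓ = 1) (x : E1 k N ℓ) :
    twE k N ℓ ζ hζ x = H340.tw ℓ ζ (x : LaurentSeries k) := rfl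

variable {k N ℓ}

theorem finrank_E1 (hN : N ≠ 0) (hℓ : ℓ.Prime) (hℓN : ¬ ℓ ∣ N)
    (hchar : ∀ r : ℕ, r.Prime → r ∣ N * ℓ → (r : k) ≠ 0) :
    Module.finrank (K0 k N ℓ) (E1 k N ℓ) = ℓ + 1 := by
  rw [← relfinrank_eq_finrank_of_le]
  exact relfinrank_K0 k N ℓ hN hℓ hℓN hchar

theorem finiteDimensional_E1 (hN : N ≠ 0) (hℓ : ℓ.Prime) (hℓN : ¬ ℓ ∣ N)
    (hchar : ∀ r : ℕ, r.Prime → r ∣ N * ℓ → (r : k) ≠ 0) :
    FiniteDimensional (K0 k N ℓ) (E1 k N ℓ) :=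
  FiniteDimensional.of_finrank_pos (by rw [finrank_E1 hN hℓ hℓN hchar]; omega)

theorem isIntegral_K0 (hN : N ≠ 0) (hℓ : ℓ.Prime) (hℓN : ¬ ℓ ∣ N)
    (hchar : ∀ r : ℕ, r.Prime → r ∣ N * ℓ → (r : k) ≠ 0)
    {g : LaurentSeries k} (hg : g ∈ modularFunctionFieldFullC k (N * ℓ)) :
    IsIntegral (K0 k N ℓ) g := by
  have := finiteDimensional_E1 hN hℓ hℓN hchar
  have h : IsIntegral (K0 k N ℓ) (⟨g, hg⟩ : E1 k N ℓ) := IsIntegral.of_finite _ _
  exact h.map (E1 k N ℓ).val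

/-- an element of `F_{Nℓ}` whose `ℓ` twists are pairwise distinct generates `F_{Nℓ}` over
`V(F_N)` -/
theorem adjoin_eq_E1 (hN : N ≠ 0) (hℓ : ℓ.Prime) (hℓN : ¬ ℓ ∣ N)
    (hchar : ∀ r : ℕ, r.Prime → r ∣ N * ℓ → (r : k) ≠ 0) {ζ : k} (hζ : IsPrimitiveRoot ζ ℓ)
    {g : LaurentSeries k} (hg : g ∈ modularFunctionFieldFullC k (N * ℓ))
    (hinj : Function.Injective (fun b : Fin ℓ => H340.tw ℓ (ζ ^ (b : ℕ)) g)) :
    adjoin (K0 k N ℓ) {g} = E1 k N ℓ := by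
  classical
  have := finiteDimensional_E1 hN hℓ hℓN hchar
  have hle : adjoin (K0 k N ℓ) {g} ≤ E1 k N ℓ := by
    rw [adjoin_le_iff]
    rintro x hx
    rw [Set.mem_singleton_iff] at hx
    subst hx
    exact hg
  have hint := isIntegral_K0 hN hℓ hℓN hchar hg
  have hroot : ∀ b : Fin ℓ, aeval (H340.tw ℓ (ζ ^ (b : ℕ)) g) (minpoly (K0 k N ℓ) g) = 0 := by
    intro b
    have h1 : aeval (⟨g, hg⟩ : E1 k N ℓ) (minpoly (K0 k N ℓ) g) = 0 := by
      apply (algebraMap (E1 k N ℓ) (LaurentSeries k)).injective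
      rw [map_zero, ← aeval_algebraMap_apply]
      exact minpoly.aeval _ _
    have h2 := congrArg (twE k N ℓ (ζ ^ (b : ℕ)) (H340.pow_pow_eq_one hζ.pow_eq_one b)) h1
    rw [← aeval_algHom_apply, map_zero] at h2
    exact h2
  have hm0 : (minpoly (K0 k N ℓ) g).map (algebraMap (K0 k N ℓ) (LaurentSeries k)) ≠ 0 :=
    (Polynomial.map_ne_zero_iff (algebraMap (K0 k N ℓ) (LaurentSeries k)).injective).mpr
      (minpoly.ne_zero hint)
  have hdeg : ℓ ≤ (minpoly (K0 k N ℓ) g).natDegree := by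
    have hsub : (Finset.univ.image (fun b : Fin ℓ => H340.tw ℓ (ζ ^ (b : ℕ)) g)).val ⊆
        ((minpoly (K0 k N ℓ) g).map (algebraMap (K0 k N ℓ) (LaurentSeries k))).roots := by
      intro z hz
      rw [Finset.mem_val, Finset.mem_image] at hz
      obtain ⟨b, -, rfl⟩ := hz
      rw [Polynomial.mem_roots hm0, Polynomial.IsRoot, Polynomial.eval_map_algebraMap]
      exact hroot b
    have h := Polynomial.card_le_degree_of_subset_roots hsub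
    rw [Finset.card_image_of_injective _ hinj, Finset.card_univ, Fintype.card_fin,
      Polynomial.natDegree_map] at h
    exact h
  have hfin : Module.finrank (K0 k N ℓ) (adjoin (K0 k N ℓ) {g}) =
      (minpoly (K0 k N ℓ) g).natDegree := adjoin.finrank hint
  have hdvd := IntermediateField.finrank_dvd_of_le_right hle
  rw [hfin, finrank_E1 hN hℓ hℓN hchar] at hdvd
  have hd1 : (minpoly (K0 k N ℓ) g).natDegree = ℓ + 1 := by
    have hle' := Nat.le_of_dvd (Nat.succ_pos ℓ) hdvd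
    rcases Nat.lt_or_ge (minpoly (K0 k N ℓ) g).natDegree (ℓ + 1) with h | h
    · exfalso
      have heq : (minpoly (K0 k N ℓ) g).natDegree = ℓ := by omega
      rw [heq] at hdvd
      have h1 : ℓ ∣ 1 := (Nat.dvd_add_right (dvd_refl ℓ)).mp hdvd
      exact hℓ.one_lt.ne' (Nat.dvd_one.mp h1)
    · omega
  exact IntermediateField.eq_of_le_of_finrank_eq hle
    (by rw [hfin, hd1, finrank_E1 hN hℓ hℓN hchar])

end Fields

section Roots

variable (k : Type*) [Field k] (ℓ : ℕ) [NeZero ℓ]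

theorem qExpand_congr' {a b : ℕ} [NeZero a] [NeZero b] (h : a = b) (f : LaurentSeries k) :
    qExpand k a f = qExpand k b f := by
  subst h
  rfl

theorem qExpand_comm' (a b : ℕ) [NeZero a] [NeZero b] (f : LaurentSeries k) :
    qExpand k a (qExpand k b f) = qExpand k b (qExpand k a f) := by
  rw [qExpand_qExpand, qExpand_qExpand]
  exact qExpand_congr' k (mul_comm a b) f

/-- `Φ(j_d, j_{dℓ}) = 0` -/
theorem modPoly_eval_gd (Φ : ModPolyData ℓ) (d : ℕ) [NeZero d] :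
    Φ.Φ.eval₂ (evalAt (qExpand k ℓ (gd k d))) (gd k d) = 0 := by
  have h := congrArg (qExpand k d) (h88_modPoly_eval_j k ℓ Φ)
  rw [Polynomial.hom_eval₂, map_zero, h88_comp_evalAt, qExpand_comm'] at h
  exact h

/-- `Φ(j_{dℓ²}, j_{dℓ}) = 0` -/
theorem modPoly_eval_VVgd (Φ : ModPolyData ℓ) (d : ℕ) [NeZero d] :
    Φ.Φ.eval₂ (evalAt (qExpand k ℓ (gd k d))) (qExpand k ℓ (qExpand k ℓ (gd k d))) = 0 := by
  have h := congrArg (qExpand k d) (h88_modPoly_eval_jpp k ℓ Φ)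
  rw [Polynomial.hom_eval₂, map_zero, h88_comp_evalAt, qExpand_comm' k d ℓ,
    qExpand_comm' k d ℓ, qExpand_comm' k d ℓ] at h
  exact h

/-- `Φ(j_d(ζ q), j_{dℓ}) = 0` -/
theorem modPoly_eval_tw_gd (Φ : ModPolyData ℓ) (d : ℕ) [NeZero d] (ζ : k) (hζ : ζ ^ ℓ = 1) :
    Φ.Φ.eval₂ (evalAt (qExpand k ℓ (gd k d))) (H340.tw ℓ ζ (gd k d)) = 0 := by
  have h := congrArg (H340.twHom ℓ ζ hζ) (modPoly_eval_gd k ℓ Φ d)
  rw [Polynomial.hom_eval₂, map_zero, h88_comp_evalAt, H340.twHom_apply, H340.twHom_apply,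
    H340.tw_qExpand] at h
  exact h

variable {k ℓ}

/-- the roots of `Φ(X, j_{dℓ})` in `k((q))` are `j_{dℓ²}` and the `ℓ` twists of `j_d` -/
theorem modPoly_root_cases (Φ : ModPolyData ℓ) {ζ : k} (hζ : IsPrimitiveRoot ζ ℓ)
    (hℓ : ℓ.Prime) {d : ℕ} [NeZero d] (hd : ¬ ℓ ∣ d) {r : LaurentSeries k}
    (hr : Φ.Φ.eval₂ (evalAt (qExpand k ℓ (gd k d))) r = 0) :
    r = qExpand k ℓ (qExpand k ℓ (gd k d)) ∨ ∃ b : Fin ℓ, r = H340.tw ℓ (ζ ^ (b : ℕ)) (gd k d) := by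
  classical
  set P : (LaurentSeries k)[X] := Φ.Φ.map (evalAt (qExpand k ℓ (gd k d))) with hP
  have hPm : P.Monic := Φ.monic.map _
  have hPd : P.natDegree = ℓ + 1 := by rw [hP, Φ.monic.natDegree_map, Φ.natDegree_eq]
  have hev : ∀ x : LaurentSeries k, P.IsRoot x ↔
      Φ.Φ.eval₂ (evalAt (qExpand k ℓ (gd k d))) x = 0 := by
    intro x
    rw [Polynomial.IsRoot, hP, Polynomial.eval_map]
  set T : Finset (LaurentSeries k) :=
    Finset.univ.image (fun b : Fin ℓ => H340.tw ℓ (ζ ^ (b : ℕ)) (gd k d)) with hT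
  set S : Finset (LaurentSeries k) := insert (qExpand k ℓ (qExpand k ℓ (gd k d))) T with hS
  have hnot : qExpand k ℓ (qExpand k ℓ (gd k d)) ∉ T := by
    rw [hT, Finset.mem_image]
    rintro ⟨b, -, hb⟩
    exact qExpand_qExpand_gd_ne_tw hζ hℓ hd b hb.symm
  have hcard : S.card = ℓ + 1 := by
    rw [hS, Finset.card_insert_of_notMem hnot, hT,
      Finset.card_image_of_injective _ (tw_gd_injective hζ hℓ hd), Finset.card_univ,
      Fintype.card_fin]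
  have hsub : S.val ⊆ P.roots := by
    intro z hz
    rw [Finset.mem_val, hS, Finset.mem_insert] at hz
    rw [Polynomial.mem_roots hPm.ne_zero, hev]
    rcases hz with rfl | hz
    · exact modPoly_eval_VVgd k ℓ Φ d
    · rw [hT, Finset.mem_image] at hz
      obtain ⟨b, -, rfl⟩ := hz
      exact modPoly_eval_tw_gd k ℓ Φ d _ (H340.pow_pow_eq_one hζ.pow_eq_one b)
  have hle : S.val ≤ P.roots := (Multiset.le_iff_subset S.nodup).mpr hsub
  have hcard2 : Multiset.card P.roots ≤ Multiset.card S.val := by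
    rw [Finset.card_val, hcard, ← hPd]
    exact Polynomial.card_roots' P
  have heq : S.val = P.roots := Multiset.eq_of_le_of_card_le hle hcard2
  have hrmem : r ∈ S.val := by
    rw [heq, Polynomial.mem_roots hPm.ne_zero, hev]
    exact hr
  rw [Finset.mem_val, hS, Finset.mem_insert] at hrmem
  rcases hrmem with h | h
  · exact Or.inl h
  · rw [hT, Finset.mem_image] at h
    obtain ⟨b, -, hb⟩ := h
    exact Or.inr ⟨b, hb.symm⟩

end Roots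

section TauInf

variable {k : Type*} [Field k] {N ℓ : ℕ} [NeZero ℓ]

theorem Vgd_mem_K0 {d : ℕ} [NeZero d] (hd : d ∣ N) : qExpand k ℓ (gd k d) ∈ K0 k N ℓ :=
  ⟨gd k d, jd_mem_fullC k hd, rfl⟩

theorem gd_mem_K1 {d : ℕ} [NeZero d] (hd : d ∣ N) :
    gd k d ∈ modularFunctionFieldFullC k (N * ℓ) :=
  jd_mem_fullC k (hd.trans (dvd_mul_right N ℓ))

theorem not_dvd_of_dvd {d : ℕ} (hℓN : ¬ ℓ ∣ N) (hd : d ∣ N) : ¬ ℓ ∣ d :=
  fun h => hℓN (h.trans hd)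

/-- two `V(F_N)`-embeddings of `F_{Nℓ}` which agree on a generator are equal -/
theorem algHom_ext_of_adjoin_eq {g : LaurentSeries k}
    (h : adjoin (K0 k N ℓ) {g} = E1 k N ℓ) (hint : IsIntegral (K0 k N ℓ) g)
    (hg : g ∈ modularFunctionFieldFullC k (N * ℓ))
    (f₁ f₂ : E1 k N ℓ →ₐ[K0 k N ℓ] LaurentSeries k)
    (heq : f₁ ⟨g, hg⟩ = f₂ ⟨g, hg⟩) : f₁ = f₂ := by
  let e : adjoin (K0 k N ℓ) {g} ≃ₐ[K0 k N ℓ] E1 k N ℓ := IntermediateField.equivOfEq h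
  have hgen : e (adjoin.powerBasis hint).gen = ⟨g, hg⟩ := Subtype.ext rfl
  have h1 : f₁.comp e.toAlgHom = f₂.comp e.toAlgHom := by
    apply (adjoin.powerBasis hint).algHom_ext
    show f₁ (e (adjoin.powerBasis hint).gen) = f₂ (e (adjoin.powerBasis hint).gen)
    rw [hgen, heq]
  apply AlgHom.ext
  intro x
  have h2 := congrArg
    (fun f : adjoin (K0 k N ℓ) {g} →ₐ[K0 k N ℓ] LaurentSeries k => f (e.symm x)) h1
  simpa using h2

variable (hN : N ≠ 0) (hℓ : ℓ.Prime) (hℓN : ¬ ℓ ∣ N)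
  (hchar : ∀ r : ℕ, r.Prime → r ∣ N * ℓ → (r : k) ≠ 0) {ζ : k} (hζ : IsPrimitiveRoot ζ ℓ)

include hN hℓ hℓN hchar hζ

theorem adjoin_gd_eq_E1 {d : ℕ} [NeZero d] (hd : d ∣ N) :
    adjoin (K0 k N ℓ) {gd k d} = E1 k N ℓ :=
  adjoin_eq_E1 hN hℓ hℓN hchar hζ (gd_mem_K1 hd)
    (tw_gd_injective hζ hℓ (not_dvd_of_dvd hℓN hd))

/-- the minimal polynomial of `j(q^d)` over `V(F_N)` is `Φ_ℓ(X, j(q^{dℓ}))` -/
theorem minpoly_gd (Φ : ModPolyData ℓ) {d : ℕ} [NeZero d] (hd : d ∣ N) :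
    minpoly (K0 k N ℓ) (gd k d) = Φ.Φ.map (h88_evalSub k (K0 k N ℓ) (Vgd_mem_K0 hd)) := by
  have hint := isIntegral_K0 hN hℓ hℓN hchar (gd_mem_K1 (ℓ := ℓ) (k := k) hd)
  have hdvd : minpoly (K0 k N ℓ) (gd k d) ∣
      Φ.Φ.map (h88_evalSub k (K0 k N ℓ) (Vgd_mem_K0 hd)) := by
    apply minpoly.dvd
    rw [h88_aeval_map_evalSub]
    exact modPoly_eval_gd k ℓ Φ d
  have hfin : Module.finrank (K0 k N ℓ) (adjoin (K0 k N ℓ) {gd k d}) =
      (minpoly (K0 k N ℓ) (gd k d)).natDegree := adjoin.finrank hint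
  rw [adjoin_gd_eq_E1 hN hℓ hℓN hchar hζ hd, finrank_E1 hN hℓ hℓN hchar] at hfin
  refine (Polynomial.eq_of_monic_of_dvd_of_natDegree_le (minpoly.monic hint) (Φ.monic.map _)
    hdvd ?_).symm
  rw [Φ.monic.natDegree_map, Φ.natDegree_eq, ← hfin]

/-- **The last embedding.** There is a `V(F_N)`-embedding `τ` of `F_{Nℓ}` into `k((q))` with
`τ(j(q^d)) = j(q^{dℓ²})` for all `d ∣ N`. -/
theorem exists_tauInf :
    ∃ τ : E1 k N ℓ →ₐ[K0 k N ℓ] LaurentSeries k,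
      ∀ (d : ℕ) [NeZero d] (hd : d ∣ N),
        τ ⟨gd k d, gd_mem_K1 hd⟩ = qExpand k ℓ (qExpand k ℓ (gd k d)) := by
  obtain ⟨Φ⟩ := H807.nonempty_modPolyData ℓ hℓ
  have h1N : (1 : ℕ) ∣ N := one_dvd N
  have hint1 := isIntegral_K0 hN hℓ hℓN hchar (gd_mem_K1 (ℓ := ℓ) (k := k) h1N)
  have hadj1 := adjoin_gd_eq_E1 hN hℓ hℓN hchar hζ h1N
  have hroot : aeval (qExpand k ℓ (qExpand k ℓ (gd k 1)))
      (minpoly (K0 k N ℓ) (adjoin.powerBasis hint1).gen) = 0 := by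
    rw [adjoin.powerBasis_gen, minpoly_gen, minpoly_gd hN hℓ hℓN hchar hζ Φ h1N,
      h88_aeval_map_evalSub]
    exact modPoly_eval_VVgd k ℓ Φ 1
  let e : E1 k N ℓ ≃ₐ[K0 k N ℓ] adjoin (K0 k N ℓ) {gd k 1} :=
    IntermediateField.equivOfEq hadj1.symm
  let τ : E1 k N ℓ →ₐ[K0 k N ℓ] LaurentSeries k :=
    ((adjoin.powerBasis hint1).lift _ hroot).comp e.toAlgHom
  have hτ1 : τ ⟨gd k 1, gd_mem_K1 h1N⟩ = qExpand k ℓ (qExpand k ℓ (gd k 1)) := by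
    have he : e ⟨gd k 1, gd_mem_K1 h1N⟩ = (adjoin.powerBasis hint1).gen := Subtype.ext rfl
    show (adjoin.powerBasis hint1).lift _ hroot (e ⟨gd k 1, gd_mem_K1 h1N⟩) = _
    rw [he, PowerBasis.lift_gen]
  refine ⟨τ, fun d _ hd => ?_⟩
  have hℓd := not_dvd_of_dvd hℓN hd
  have hintd := isIntegral_K0 hN hℓ hℓN hchar (gd_mem_K1 (ℓ := ℓ) (k := k) hd)
  -- `τ(g_d)` is a root of `Φ(X, V g_d)`
  have h0 : aeval (⟨gd k d, gd_mem_K1 hd⟩ : E1 k N ℓ)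
      (Φ.Φ.map (h88_evalSub k (K0 k N ℓ) (Vgd_mem_K0 hd))) = 0 := by
    apply (algebraMap (E1 k N ℓ) (LaurentSeries k)).injective
    rw [map_zero, ← aeval_algebraMap_apply]
    show aeval (gd k d) _ = 0
    rw [h88_aeval_map_evalSub]
    exact modPoly_eval_gd k ℓ Φ d
  have h2 := congrArg τ h0
  rw [← aeval_algHom_apply, map_zero, h88_aeval_map_evalSub] at h2
  rcases modPoly_root_cases Φ hζ hℓ hℓd h2 with h | ⟨b, hb⟩
  · exact h
  · exfalso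
    have hext : τ = twE k N ℓ (ζ ^ (b : ℕ)) (H340.pow_pow_eq_one hζ.pow_eq_one b) :=
      algHom_ext_of_adjoin_eq (adjoin_gd_eq_E1 hN hℓ hℓN hchar hζ hd) hintd (gd_mem_K1 hd) _ _
        (by rw [hb, twE_apply])
    have h3 := congrArg (fun f : E1 k N ℓ →ₐ[K0 k N ℓ] LaurentSeries k =>
      f ⟨gd k 1, gd_mem_K1 h1N⟩) hext
    simp only [twE_apply] at h3
    rw [hτ1] at h3
    exact qExpand_qExpand_gd_ne_tw hζ hℓ (not_dvd_of_dvd hℓN h1N) b h3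

end TauInf

end Fermat.Agent.S37.H88
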