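import Mathlib

/-!
# S37 / E-a (helper88): characteristic polynomial as a product over embeddings (Mathlib only)

`charpoly_map_eq_prod_embeddings` : let `K/F` be a finite field extension, `φ : F →+* Ω` a ring
homomorphism into a field and `σ i : K →+* Ω`, `i : ι`, pairwise distinct extensions of `φ`, with
`#ι = [K : F]`.  Then for every `x : K`

  `(charpoly of multiplication by x).map φ = ∏ i, (X - C (σ i x))`.

No separability or normality hypothesis; `Ω` need not be algebraically closed.
Corollaries: `norm_map_eq_prod_embeddings`, `trace_map_eq_sum_embeddings`.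
-/

set_option autoImplicit false

noncomputable section

namespace Fermat.Agent.S37.H88

open Polynomial Matrix

/-- If `P * M = D * P` with `det P ≠ 0` over a domain, then `M` and `D` have the same
characteristic polynomial. -/
theorem charpoly_eq_of_intertwine' {S : Type*} [CommRing S] [IsDomain S] {n : Type*} [Fintype n]
    [DecidableEq n] (P M D : Matrix n n S) (hPM : P * M = D * P) (hdet : P.det ≠ 0) :
    M.charpoly = D.charpoly := by
  have hscal : (P.map C) * Matrix.scalar n (X : S[X]) = Matrix.scalar n (X : S[X]) * (P.map C) :=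
    ((Matrix.scalar_commute (X : S[X]) (fun r' => Commute.all _ _)) (P.map C)).eq.symm
  have hmap : (P.map C) * (M.map C) = (D.map C) * (P.map (C : S →+* S[X])) := by
    rw [← Matrix.map_mul, ← Matrix.map_mul, hPM]
  have hchar : (P.map C) * charmatrix M = charmatrix D * (P.map C) := by
    rw [charmatrix, charmatrix, Matrix.mul_sub, Matrix.sub_mul, hscal]
    congr 1
  have hdets := congrArg Matrix.det hchar
  rw [Matrix.det_mul, Matrix.det_mul] at hdets
  have hPC : (P.map (C : S →+* S[X])).det ≠ 0 := by
    have : (P.map (C : S →+* S[X])).det = C P.det := by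
      rw [← RingHom.mapMatrix_apply, ← RingHom.map_det]
    rw [this]
    exact (map_ne_zero_iff _ C_injective).mpr hdet
  rw [mul_comm (charmatrix D).det] at hdets
  exact mul_left_cancel₀ hPC hdets

section

variable {F K Ω ι : Type*} [Field F] [Field K] [Field Ω] [Algebra F K] [Fintype ι]
  [DecidableEq ι]

/-- the matrix `(σ i (b j))` of a family of distinct extensions of `φ` is invertible -/
theorem det_embeddings_ne_zero (φ : F →+* Ω) (σ : ι → K →+* Ω)
    (hσ : ∀ i a, σ i (algebraMap F K a) = φ a) (hinj : Function.Injective σ)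
    (b : Module.Basis ι F K) :
    (Matrix.of fun i j => σ i (b j)).det ≠ 0 := by
  intro hdet
  obtain ⟨v, hv0, hv⟩ := Matrix.exists_vecMul_eq_zero_iff.mpr hdet
  apply hv0
  have hli : LinearIndependent Ω (fun i : ι => ((σ i : K →* Ω) : K → Ω)) := by
    have h1 := linearIndependent_monoidHom K Ω
    refine h1.comp (fun i : ι => (σ i : K →* Ω)) ?_
    intro i i' h
    apply hinj
    ext y
    exact DFunLike.congr_fun h y
  have hsum : ∑ i, v i • ((σ i : K →* Ω) : K → Ω) = 0 := by
    funext y
    rw [Finset.sum_apply, Pi.zero_apply]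
    simp only [Pi.smul_apply, smul_eq_mul]
    have hy : ∀ i, (σ i : K →* Ω) y = ∑ j, φ (b.repr y j) * σ i (b j) := by
      intro i
      conv_lhs => rw [← b.sum_repr y]
      show σ i (∑ j, b.repr y j • b j) = _
      rw [map_sum]
      refine Finset.sum_congr rfl fun j _ => ?_
      rw [Algebra.smul_def, map_mul, hσ]
    simp_rw [hy, Finset.mul_sum]
    rw [Finset.sum_comm]
    refine Finset.sum_eq_zero fun j _ => ?_
    have hj := congrFun hv j
    simp only [Matrix.vecMul, dotProduct, Matrix.of_apply, Pi.zero_apply] at hj
    calc ∑ i, v i * (φ (b.repr y j) * σ i (b j))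
        = φ (b.repr y j) * ∑ i, v i * σ i (b j) := by
          rw [Finset.mul_sum]
          refine Finset.sum_congr rfl fun i _ => ?_
          ring
      _ = 0 := by rw [hj, mul_zero]
  funext i
  exact Fintype.linearIndependent_iff.mp hli v hsum i

/-- **Characteristic polynomial as a product over embeddings.** -/
theorem charpoly_map_eq_prod_embeddings [FiniteDimensional F K] (φ : F →+* Ω)
    (σ : ι → K →+* Ω) (hσ : ∀ i a, σ i (algebraMap F K a) = φ a)
    (hinj : Function.Injective σ) (hcard : Module.finrank F K = Fintype.card ι) (x : K) :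
    ((Algebra.lmul F K x).charpoly).map φ = ∏ i, (X - C (σ i x)) := by
  have hcard' : Module.finrank F K = Fintype.card ι := hcard
  let b0 : Module.Basis (Fin (Module.finrank F K)) F K := Module.finBasis F K
  let e : Fin (Module.finrank F K) ≃ ι :=
    Fintype.equivOfCardEq (by rw [Fintype.card_fin, hcard'])
  let b : Module.Basis ι F K := b0.reindex e
  have hM : (Algebra.lmul F K x).charpoly = (Algebra.leftMulMatrix b x).charpoly := by
    rw [Algebra.leftMulMatrix_apply, LinearMap.charpoly_toMatrix]
  set M := Algebra.leftMulMatrix b x with hMdef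
  set P : Matrix ι ι Ω := Matrix.of fun i j => σ i (b j) with hP
  have hPM : P * M.map φ = Matrix.diagonal (fun i => σ i x) * P := by
    ext i j
    rw [Matrix.mul_apply, Matrix.diagonal_mul]
    simp only [hP, Matrix.of_apply, Matrix.map_apply]
    have h1 : x * b j = ∑ k, M k j • b k := by
      have h2 := b.sum_repr (x * b j)
      rw [← h2]
      refine Finset.sum_congr rfl fun k _ => ?_
      rw [hMdef, Algebra.leftMulMatrix_apply, LinearMap.toMatrix_apply]
      rfl
    have h3 := congrArg (σ i) h1
    rw [map_mul, map_sum] at h3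
    rw [h3]
    refine Finset.sum_congr rfl fun k _ => ?_
    rw [Algebra.smul_def, map_mul, hσ, mul_comm]
  have hdet := det_embeddings_ne_zero φ σ hσ hinj b
  rw [hM, ← Matrix.charpoly_map, charpoly_eq_of_intertwine' P (M.map φ) _ hPM hdet,
    Matrix.charpoly_diagonal]

/-- **Norm as a product over embeddings.** -/
theorem norm_map_eq_prod_embeddings [FiniteDimensional F K] (φ : F →+* Ω)
    (σ : ι → K →+* Ω) (hσ : ∀ i a, σ i (algebraMap F K a) = φ a)
    (hinj : Function.Injective σ) (hcard : Module.finrank F K = Fintype.card ι) (x : K) :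
    φ (Algebra.norm F x) = ∏ i, σ i x := by
  have h := charpoly_map_eq_prod_embeddings φ σ hσ hinj hcard x
  have h0 := congrArg (fun p : Polynomial Ω => p.coeff 0) h
  simp only [Polynomial.coeff_map] at h0
  rw [Algebra.norm_apply, LinearMap.det_eq_sign_charpoly_coeff, map_mul, map_pow, map_neg,
    map_one, h0, hcard, Polynomial.coeff_zero_eq_eval_zero, Polynomial.eval_prod]
  simp only [Polynomial.eval_sub, Polynomial.eval_X, Polynomial.eval_C, zero_sub]
  rw [Finset.prod_neg, Finset.card_univ, ← mul_assoc, ← mul_pow]
  simp

end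

end Fermat.Agent.S37.H88
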