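import Mathlib
import Fermat.Agent.S37.H88.ALEmbed
import Fermat.Agent.S37.H88.CharpolyEmb
import Fermat.Agent.S37.H400.KronNorm
import Fermat.Prelude.Def_ModularCurve_HeckeOperatorTotal

/-!
# S37 / E-a KRON + NORM-ID (helper88): the Hecke characteristic polynomial is the Kronecker polynomial

`L` a field of characteristic `0` with a primitive `ℓ`-th root of unity (e.g. `L = ℚ̄`), `ℓ ∤ N` prime,
`F_M = laurentBaseChange L (modularFunctionFieldFull M) ⊆ L((q))`,
`α = heckeAlphaBar L N ℓ` (inclusion), `β = heckeBetaBar L N ℓ` (`q ↦ q^ℓ`).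

* `finrankAlong_heckeBetaBar` : `[F_{Nℓ} : β F_N] = ℓ + 1`;
* `charpoly_beta_alpha` : for `y ∈ F_N` the characteristic polynomial of `α y` with respect to
  the `β`-structure, with coefficients read in `L((q))`, is `H400.kronPoly ℓ y`
  `= (X - y(q^ℓ)) · ∏_b (X - y(ζ^b q^{1/ℓ}))`.
-/

set_option autoImplicit false
set_option linter.unusedSectionVars false
set_option linter.style.haveILetI false
set_option synthInstance.maxHeartbeats 400000

noncomputable section

namespace Fermat.Agent.S37.H88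

open ModularCurve Polynomial IntermediateField Fermat.Agent.S28 Fermat.Agent.S37 AlgebraicCurve

section General

variable {k : Type*} [Field k] {N ℓ : ℕ} [NeZero ℓ]
variable (hN : N ≠ 0) (hℓ : ℓ.Prime) (hℓN : ¬ ℓ ∣ N)
  (hchar : ∀ r : ℕ, r.Prime → r ∣ N * ℓ → (r : k) ≠ 0) {ζ : k} (hζ : IsPrimitiveRoot ζ ℓ)

include hN hℓ hℓN hchar hζ

/-- **The last embedding on `F_N`.** -/
theorem exists_tauInf_fullC :
    ∃ τ : E1 k N ℓ →ₐ[K0 k N ℓ] LaurentSeries k,
      ∀ (y : LaurentSeries k) (hy : y ∈ modularFunctionFieldFullC k N),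
        τ ⟨y, fullC_mono k (dvd_mul_right N ℓ) hy⟩ = qExpand k ℓ (qExpand k ℓ y) := by
  obtain ⟨τ, hτ⟩ := exists_tauInf hN hℓ hℓN hchar hζ
  refine ⟨τ, fun y hy => ?_⟩
  have hle := fullC_mono k (dvd_mul_right N ℓ)
  induction hy using IntermediateField.adjoin_induction with
  | mem x hx =>
    obtain ⟨d, hd0, hd, rfl⟩ := hx
    exact @hτ d hd0 hd
  | algebraMap c =>
    have h1 : (⟨algebraMap k (LaurentSeries k) c,
        hle (IntermediateField.algebraMap_mem _ c)⟩ : E1 k N ℓ) =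
        algebraMap (K0 k N ℓ) (E1 k N ℓ) (algebraMap k (K0 k N ℓ) c) := Subtype.ext rfl
    rw [h1, τ.commutes]
    have h2 : qExpand k ℓ (qExpand k ℓ (algebraMap k (LaurentSeries k) c)) =
        algebraMap k (LaurentSeries k) c := by
      rw [← qExpandAlgHomC_apply, ← qExpandAlgHomC_apply, AlgHom.commutes, AlgHom.commutes]
    rw [h2]
    rfl
  | add x y hx hy ihx ihy =>
    have h1 : (⟨x + y, hle (add_mem hx hy)⟩ : E1 k N ℓ) =
        (⟨x, hle hx⟩ : E1 k N ℓ) + ⟨y, hle hy⟩ := Subtype.ext rfl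
    rw [h1, map_add, ihx, ihy, map_add, map_add]
  | inv x hx ihx =>
    have h1 : (⟨x⁻¹, hle (inv_mem hx)⟩ : E1 k N ℓ) =
        (⟨x, hle hx⟩ : E1 k N ℓ)⁻¹ := Subtype.ext rfl
    rw [h1, map_inv₀, ihx, map_inv₀, map_inv₀]
  | mul x y hx hy ihx ihy =>
    have h1 : (⟨x * y, hle (mul_mem hx hy)⟩ : E1 k N ℓ) =
        (⟨x, hle hx⟩ : E1 k N ℓ) * ⟨y, hle hy⟩ := Subtype.ext rfl
    rw [h1, map_mul, ihx, ihy, map_mul, map_mul]

end General

section Main

variable (L : Type*) [Field L] [Algebra ℚ L] (N ℓ : ℕ) [NeZero N] [NeZero ℓ]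

theorem secMat_eq_kronMat {R : Type*} [CommRing R] (f : LaurentSeries R) :
    H400.secMat ℓ f = H340.kronMat ℓ f := by
  ext i j n
  rw [H400.secMat_apply', H340.kronMat_apply, H400.secL_coeff, H340.sect_coeff]

theorem kronPoly_eq {R : Type*} [CommRing R] (f : LaurentSeries R) :
    H400.kronPoly ℓ f = (X - C (qExpand R ℓ f)) * H340.kron ℓ f := by
  rw [H400.kronPoly, H340.kron, secMat_eq_kronMat]

/-- `V (Ψ_f) = (X - f(q^{ℓ²})) ∏_b (X - f(ζ^b q))` -/
theorem kronPoly_map_qExpand {R : Type*} [CommRing R] [IsDomain R] {ζ : R}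
    (hζ : IsPrimitiveRoot ζ ℓ) (f : LaurentSeries R) :
    (H400.kronPoly ℓ f).map (qExpand R ℓ) =
      (X - C (qExpand R ℓ (qExpand R ℓ f))) *
        ∏ b : Fin ℓ, (X - C (H340.tw ℓ (ζ ^ (b : ℕ)) f)) := by
  rw [kronPoly_eq, Polynomial.map_mul, H340.kron_map_qExpand_eq_prod hζ, Polynomial.map_sub,
    Polynomial.map_X, Polynomial.map_C]

theorem natCast_ne_zero_of_algebraRat {r : ℕ} (hr : r ≠ 0) : (r : L) ≠ 0 := by
  have : CharZero L := algebraRat.charZero L
  exact Nat.cast_ne_zero.mpr hr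

theorem FB_eq (M : ℕ) :
    laurentBaseChange L (modularFunctionFieldFull M) = modularFunctionFieldFullC L M :=
  H988.laurentBaseChange_full_eq_fullC L M

/-- `F_{Nℓ} → E1`, the identity on underlying series -/
def inclE : laurentBaseChange L (modularFunctionFieldFull (N * ℓ)) →+* E1 L N ℓ where
  toFun x := ⟨x.1, (FB_eq L (N * ℓ)).le x.2⟩
  map_one' := rfl
  map_mul' _ _ := rfl
  map_zero' := rfl
  map_add' _ _ := rfl

/-- `F_N → V(F_N)`, `y ↦ y(q^ℓ)` -/
def toK0 : laurentBaseChange L (modularFunctionFieldFull N) →+* K0 L N ℓ where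
  toFun y := ⟨qExpand L ℓ y.1, ⟨y.1, (FB_eq L N).le y.2, rfl⟩⟩
  map_one' := Subtype.ext (map_one _)
  map_mul' _ _ := Subtype.ext (map_mul _ _ _)
  map_zero' := Subtype.ext (map_zero _)
  map_add' _ _ := Subtype.ext (map_add _ _ _)

theorem inclE_bijective : Function.Bijective (inclE L N ℓ) := by
  constructor
  · intro x y h
    have h' : ((inclE L N ℓ x : E1 L N ℓ) : LaurentSeries L) = (inclE L N ℓ y : E1 L N ℓ) :=
      congrArg (fun e : E1 L N ℓ => (e : LaurentSeries L)) h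
    exact Subtype.ext h'
  · intro e
    exact ⟨⟨e.1, (FB_eq L (N * ℓ)).ge e.2⟩, rfl⟩

theorem toK0_bijective : Function.Bijective (toK0 L N ℓ) := by
  constructor
  · intro x y h
    exact Subtype.ext (qExpand_injective ℓ (congrArg Subtype.val h))
  · rintro ⟨_, ⟨y, hy, rfl⟩⟩
    exact ⟨⟨y, (FB_eq L N).ge hy⟩, rfl⟩

variable {L N ℓ}

/-- **Degree of the second degeneracy map**: `[F_{Nℓ} : β F_N] = ℓ + 1` for `ℓ ∤ N`. -/
theorem finrankAlong_heckeBetaBar (hℓ : ℓ.Prime) (hℓN : ¬ ℓ ∣ N) :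
    finrankAlong L (heckeBetaBar L N ℓ) = ℓ + 1 := by
  have hN : N ≠ 0 := NeZero.ne N
  have hchar : ∀ r : ℕ, r.Prime → r ∣ N * ℓ → (r : L) ≠ 0 :=
    fun r hr _ => natCast_ne_zero_of_algebraRat L hr.ne_zero
  rw [← finrank_E1 hN hℓ hℓN hchar]
  unfold finrankAlong
  letI := algebraAlong (heckeBetaBar L N ℓ)
  exact Algebra.finrank_eq_of_equiv_equiv (RingEquiv.ofBijective _ (toK0_bijective L N ℓ))
    (RingEquiv.ofBijective _ (inclE_bijective L N ℓ)) (by
      ext y
      rfl)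

theorem finiteAlong_heckeBetaBar (hℓ : ℓ.Prime) (hℓN : ¬ ℓ ∣ N) :
    FiniteAlong L (heckeBetaBar L N ℓ) := by
  have h := finrankAlong_heckeBetaBar (L := L) hℓ hℓN
  unfold finrankAlong at h
  unfold FiniteAlong
  letI := algebraAlong (heckeBetaBar L N ℓ)
  exact FiniteDimensional.of_finrank_pos (by rw [h]; omega)

/-- **The last embedding** `τ = V ∘ w_ℓ : F_{Nℓ} → L((q))`: `τ ∘ β = V`, `τ ∘ α = V²`. -/
theorem exists_lastEmbedding (hℓ : ℓ.Prime) (hℓN : ¬ ℓ ∣ N) {ζ : L} (hζ : IsPrimitiveRoot ζ ℓ) :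
    ∃ τ : laurentBaseChange L (modularFunctionFieldFull (N * ℓ)) →+* LaurentSeries L,
      (∀ a : laurentBaseChange L (modularFunctionFieldFull N),
        τ (heckeBetaBar L N ℓ a) = qExpand L ℓ (a : LaurentSeries L)) ∧
      (∀ a : laurentBaseChange L (modularFunctionFieldFull N),
        τ (heckeAlphaBar L N ℓ a) = qExpand L ℓ (qExpand L ℓ (a : LaurentSeries L))) := by
  have hN : N ≠ 0 := NeZero.ne N
  have hchar : ∀ r : ℕ, r.Prime → r ∣ N * ℓ → (r : L) ≠ 0 :=
    fun r hr _ => natCast_ne_zero_of_algebraRat L hr.ne_zero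
  obtain ⟨τE, hτE⟩ := exists_tauInf_fullC hN hℓ hℓN hchar hζ
  refine ⟨(τE : E1 L N ℓ →+* LaurentSeries L).comp (inclE L N ℓ), fun a => ?_, fun a => ?_⟩
  · have h1 : inclE L N ℓ (heckeBetaBar L N ℓ a) =
        algebraMap (K0 L N ℓ) (E1 L N ℓ) (toK0 L N ℓ a) :=
      Subtype.ext (coe_heckeBetaBar N ℓ a)
    rw [RingHom.comp_apply, h1]
    exact τE.commutes _
  · have h1 : inclE L N ℓ (heckeAlphaBar L N ℓ a) =
        ⟨a.1, fullC_mono L (dvd_mul_right N ℓ) ((FB_eq L N).le a.2)⟩ :=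
      Subtype.ext (coe_heckeAlphaBar N ℓ a)
    rw [RingHom.comp_apply, h1]
    exact hτE a.1 ((FB_eq L N).le a.2)

/-- the family of `ℓ + 1` embeddings: `none ↦ τ`, `some b ↦ (q ↦ ζ^b q)` -/
def sigmaFam {ζ : L} (hζ : ζ ^ ℓ = 1)
    (τ : laurentBaseChange L (modularFunctionFieldFull (N * ℓ)) →+* LaurentSeries L) :
    Option (Fin ℓ) → laurentBaseChange L (modularFunctionFieldFull (N * ℓ)) →+* LaurentSeries L
  | none => τ
  | some b => (H340.twHom ℓ (ζ ^ (b : ℕ)) (H340.pow_pow_eq_one hζ b)).comp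
      (algebraMap (laurentBaseChange L (modularFunctionFieldFull (N * ℓ))) (LaurentSeries L))

theorem sigmaFam_none {ζ : L} (hζ : ζ ^ ℓ = 1)
    (τ : laurentBaseChange L (modularFunctionFieldFull (N * ℓ)) →+* LaurentSeries L) :
    sigmaFam hζ τ none = τ := rfl

theorem sigmaFam_some {ζ : L} (hζ : ζ ^ ℓ = 1)
    (τ : laurentBaseChange L (modularFunctionFieldFull (N * ℓ)) →+* LaurentSeries L)
    (b : Fin ℓ) (x : laurentBaseChange L (modularFunctionFieldFull (N * ℓ))) :
    sigmaFam hζ τ (some b) x = H340.tw ℓ (ζ ^ (b : ℕ)) (x : LaurentSeries L) := rfl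

theorem sigmaFam_injective (hℓ : ℓ.Prime) {ζ : L} (hζ : IsPrimitiveRoot ζ ℓ)
    (τ : laurentBaseChange L (modularFunctionFieldFull (N * ℓ)) →+* LaurentSeries L)
    (hτα : ∀ a : laurentBaseChange L (modularFunctionFieldFull N),
      τ (heckeAlphaBar L N ℓ a) = qExpand L ℓ (qExpand L ℓ (a : LaurentSeries L))) :
    Function.Injective (sigmaFam hζ.pow_eq_one τ) := by
  have h1N : gd L 1 ∈ modularFunctionFieldFullC L N := jd_mem_fullC L (one_dvd N)
  let j1 : laurentBaseChange L (modularFunctionFieldFull N) := ⟨gd L 1, (FB_eq L N).ge h1N⟩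
  have hℓ1 : ¬ ℓ ∣ 1 := fun h => hℓ.one_lt.ne' (Nat.dvd_one.mp h)
  have hj1 : ((heckeAlphaBar L N ℓ j1 : laurentBaseChange L (modularFunctionFieldFull (N * ℓ))) :
      LaurentSeries L) = gd L 1 := coe_heckeAlphaBar N ℓ j1
  intro i i' h
  have hj : sigmaFam hζ.pow_eq_one τ i (heckeAlphaBar L N ℓ j1) =
      sigmaFam hζ.pow_eq_one τ i' (heckeAlphaBar L N ℓ j1) := by rw [h]
  cases i with
  | none =>
    cases i' with
    | none => rfl
    | some b' =>
      rw [sigmaFam_none, sigmaFam_some, hτα, hj1] at hj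
      exact absurd hj (qExpand_qExpand_gd_ne_tw hζ hℓ hℓ1 b')
  | some b =>
    cases i' with
    | none =>
      rw [sigmaFam_none, sigmaFam_some, hτα, hj1] at hj
      exact absurd hj.symm (qExpand_qExpand_gd_ne_tw hζ hℓ hℓ1 b)
    | some b' =>
      rw [sigmaFam_some, sigmaFam_some, hj1] at hj
      exact congrArg some (tw_gd_injective hζ hℓ hℓ1 hj)

theorem sigmaFam_algebraMap {ζ : L} (hζ : ζ ^ ℓ = 1)
    (τ : laurentBaseChange L (modularFunctionFieldFull (N * ℓ)) →+* LaurentSeries L)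
    (hτβ : ∀ a : laurentBaseChange L (modularFunctionFieldFull N),
      τ (heckeBetaBar L N ℓ a) = qExpand L ℓ (a : LaurentSeries L))
    (i : Option (Fin ℓ)) (a : laurentBaseChange L (modularFunctionFieldFull N)) :
    sigmaFam hζ τ i (heckeBetaBar L N ℓ a) =
      ((qExpand L ℓ).comp (algebraMap (laurentBaseChange L (modularFunctionFieldFull N))
        (LaurentSeries L))) a := by
  rw [RingHom.comp_apply]
  cases i with
  | none => exact hτβ a
  | some b =>
    rw [sigmaFam_some, coe_heckeBetaBar, H340.tw_qExpand]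
    rfl

/-- **Characteristic polynomial along `β`.**  For every `x ∈ F_{Nℓ}` the characteristic
polynomial of `x` with respect to the `β`-structure is `(X - τ x) ∏_b (X - x(ζ^b q))`
(coefficients pushed along `V`), `τ` being a last embedding. -/
theorem charpoly_beta_of_lastEmbedding (hℓ : ℓ.Prime) (hℓN : ¬ ℓ ∣ N) {ζ : L}
    (hζ : IsPrimitiveRoot ζ ℓ)
    (τ : laurentBaseChange L (modularFunctionFieldFull (N * ℓ)) →+* LaurentSeries L)
    (hτβ : ∀ a : laurentBaseChange L (modularFunctionFieldFull N),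
      τ (heckeBetaBar L N ℓ a) = qExpand L ℓ (a : LaurentSeries L))
    (hτα : ∀ a : laurentBaseChange L (modularFunctionFieldFull N),
      τ (heckeAlphaBar L N ℓ a) = qExpand L ℓ (qExpand L ℓ (a : LaurentSeries L)))
    (x : laurentBaseChange L (modularFunctionFieldFull (N * ℓ))) :
    letI := algebraAlong (heckeBetaBar L N ℓ)
    haveI : Module.Finite (laurentBaseChange L (modularFunctionFieldFull N))
      (laurentBaseChange L (modularFunctionFieldFull (N * ℓ))) :=
      finiteAlong_heckeBetaBar hℓ hℓN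
    ((Algebra.lmul (laurentBaseChange L (modularFunctionFieldFull N)) _ x).charpoly).map
        ((qExpand L ℓ).comp (algebraMap (laurentBaseChange L (modularFunctionFieldFull N))
          (LaurentSeries L))) =
      (X - C (τ x)) *
        ∏ b : Fin ℓ, (X - C (H340.tw ℓ (ζ ^ (b : ℕ)) (x : LaurentSeries L))) := by
  classical
  letI := algebraAlong (heckeBetaBar L N ℓ)
  haveI : Module.Finite (laurentBaseChange L (modularFunctionFieldFull N))
      (laurentBaseChange L (modularFunctionFieldFull (N * ℓ))) :=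
    finiteAlong_heckeBetaBar hℓ hℓN
  have hcard : Module.finrank (laurentBaseChange L (modularFunctionFieldFull N))
      (laurentBaseChange L (modularFunctionFieldFull (N * ℓ))) =
      Fintype.card (Option (Fin ℓ)) := by
    rw [Fintype.card_option, Fintype.card_fin]
    exact finrankAlong_heckeBetaBar hℓ hℓN
  have h := charpoly_map_eq_prod_embeddings
    ((qExpand L ℓ).comp (algebraMap (laurentBaseChange L (modularFunctionFieldFull N))
        (LaurentSeries L))) (sigmaFam hζ.pow_eq_one τ)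
    (fun i a => sigmaFam_algebraMap hζ.pow_eq_one τ hτβ i a)
    (sigmaFam_injective hℓ hζ τ hτα) hcard x
  rw [h, Fintype.prod_option, sigmaFam_none]
  simp only [sigmaFam_some]

/-- **E-a (KRON).**  For `y ∈ F_N` the characteristic polynomial of `α y` with respect to the
`β`-structure of `F_{Nℓ}`, with coefficients read in `L((q))`, is the Kronecker polynomial
`Ψ_y = (X - y(q^ℓ)) · ∏_b (X - y(ζ^b q^{1/ℓ}))` (`H400.kronPoly ℓ y`). -/
theorem charpoly_beta_alpha (hℓ : ℓ.Prime) (hℓN : ¬ ℓ ∣ N) {ζ : L} (hζ : IsPrimitiveRoot ζ ℓ)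
    (y : laurentBaseChange L (modularFunctionFieldFull N)) :
    letI := algebraAlong (heckeBetaBar L N ℓ)
    haveI : Module.Finite (laurentBaseChange L (modularFunctionFieldFull N))
      (laurentBaseChange L (modularFunctionFieldFull (N * ℓ))) :=
      finiteAlong_heckeBetaBar hℓ hℓN
    ((Algebra.lmul (laurentBaseChange L (modularFunctionFieldFull N)) _
        (heckeAlphaBar L N ℓ y)).charpoly).map
        (algebraMap (laurentBaseChange L (modularFunctionFieldFull N)) (LaurentSeries L)) =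
      H400.kronPoly ℓ (y : LaurentSeries L) := by
  obtain ⟨τ, hτβ, hτα⟩ := exists_lastEmbedding (L := L) (N := N) hℓ hℓN hζ
  have h := charpoly_beta_of_lastEmbedding hℓ hℓN hζ τ hτβ hτα (heckeAlphaBar L N ℓ y)
  simp only [coe_heckeAlphaBar] at h
  rw [hτα, ← kronPoly_map_qExpand ℓ hζ, ← Polynomial.map_map] at h
  exact Polynomial.map_injective _ (qExpand_injective ℓ) h

/-- **Norm along `β`**: `Nm_β(α y) = y(q^ℓ) · ∏_b y(ζ^b q^{1/ℓ})` (`H400.kronNorm ℓ y`). -/
theorem norm_beta_alpha (hℓ : ℓ.Prime) (hℓN : ¬ ℓ ∣ N) {ζ : L} (hζ : IsPrimitiveRoot ζ ℓ)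
    (y : laurentBaseChange L (modularFunctionFieldFull N)) :
    letI := algebraAlong (heckeBetaBar L N ℓ)
    ((Algebra.norm (laurentBaseChange L (modularFunctionFieldFull N))
        (heckeAlphaBar L N ℓ y) : laurentBaseChange L (modularFunctionFieldFull N)) :
        LaurentSeries L) = H400.kronNorm ℓ (y : LaurentSeries L) := by
  letI := algebraAlong (heckeBetaBar L N ℓ)
  haveI : Module.Finite (laurentBaseChange L (modularFunctionFieldFull N))
      (laurentBaseChange L (modularFunctionFieldFull (N * ℓ))) :=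
    finiteAlong_heckeBetaBar hℓ hℓN
  have h := charpoly_beta_alpha hℓ hℓN hζ y
  have h0 := congrArg (fun p : Polynomial (LaurentSeries L) => p.coeff 0) h
  simp only [Polynomial.coeff_map, IntermediateField.algebraMap_apply] at h0
  have hfr : Module.finrank (laurentBaseChange L (modularFunctionFieldFull N))
      (laurentBaseChange L (modularFunctionFieldFull (N * ℓ))) = ℓ + 1 :=
    finrankAlong_heckeBetaBar hℓ hℓN
  rw [Algebra.norm_apply, LinearMap.det_eq_sign_charpoly_coeff, hfr, IntermediateField.coe_mul,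
    IntermediateField.coe_pow, IntermediateField.coe_neg, IntermediateField.coe_one, h0,
    H400.kronPoly_coeff_zero, ← mul_assoc, ← mul_pow]
  simp

section Bar

variable (N ℓ)

/-- a primitive `ℓ`-th root of unity in `ℚ̄` -/
theorem exists_primitiveRoot_bar : ∃ ζ : AlgebraicClosure ℚ, IsPrimitiveRoot ζ ℓ :=
  HasEnoughRootsOfUnity.exists_primitiveRoot (AlgebraicClosure ℚ) ℓ

variable {N ℓ}

/-- **E-a (KRON) over `ℚ̄`.** -/
theorem charpoly_beta_alpha_bar (hℓ : ℓ.Prime) (hℓN : ¬ ℓ ∣ N) (y : modularFunctionFieldBar N) :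
    letI := algebraAlong (heckeBetaBar (AlgebraicClosure ℚ) N ℓ)
    haveI : Module.Finite (modularFunctionFieldBar N) (modularFunctionFieldBar (N * ℓ)) :=
      finiteAlong_heckeBetaBar hℓ hℓN
    ((Algebra.lmul (modularFunctionFieldBar N) (modularFunctionFieldBar (N * ℓ))
        (heckeAlphaBar (AlgebraicClosure ℚ) N ℓ y)).charpoly).map
        (algebraMap (modularFunctionFieldBar N) (LaurentSeries (AlgebraicClosure ℚ))) =
      H400.kronPoly ℓ (y : LaurentSeries (AlgebraicClosure ℚ)) := by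
  obtain ⟨ζ, hζ⟩ := exists_primitiveRoot_bar ℓ
  exact charpoly_beta_alpha hℓ hℓN hζ y

/-- **Norm along `β` over `ℚ̄`.** -/
theorem norm_beta_alpha_bar (hℓ : ℓ.Prime) (hℓN : ¬ ℓ ∣ N) (y : modularFunctionFieldBar N) :
    letI := algebraAlong (heckeBetaBar (AlgebraicClosure ℚ) N ℓ)
    ((Algebra.norm (modularFunctionFieldBar N)
        (heckeAlphaBar (AlgebraicClosure ℚ) N ℓ y) : modularFunctionFieldBar N) :
        LaurentSeries (AlgebraicClosure ℚ)) =
      H400.kronNorm ℓ (y : LaurentSeries (AlgebraicClosure ℚ)) := by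
  obtain ⟨ζ, hζ⟩ := exists_primitiveRoot_bar ℓ
  exact norm_beta_alpha hℓ hℓN hζ y

end Bar

end Main

end Fermat.Agent.S37.H88
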