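import Mathlib
import Fermat.Agent.S37.H88.KronCharpoly
import Fermat.Agent.Lib.X0Deg.Alpha

/-!
# S37 / NORM-ID (helper88): the Atkin–Lehner swap and the norm along `α`

`L` a field of characteristic `0` with a primitive `ℓ`-th root of unity, `ℓ ∤ N` prime.

* `exists_swap` : a ring endomorphism `w` of `F_{Nℓ}` with `w ∘ α = β`, `w ∘ β = α`
  (the Atkin–Lehner involution `w_ℓ`), constructed formally as `V⁻¹ ∘ τ`;
* `finrankAlong_heckeAlphaBar'` : `[F_{Nℓ} : α F_N] = ℓ + 1`;
* `charpoly_alpha_beta` : the characteristic polynomial of `β y` with respect to the `α`-structure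
  (coefficients read in `L((q))`) is `H400.kronPoly ℓ y`;
* `norm_alpha_beta` (**NORM-ID**) : `Nm_α(β y) = H400.kronNorm ℓ y = y(q^ℓ) ∏_b y(ζ^b q^{1/ℓ})`.
-/

set_option autoImplicit false
set_option linter.unusedSectionVars false
set_option linter.style.haveILetI false
set_option synthInstance.maxHeartbeats 400000

noncomputable section

namespace Fermat.Agent.S37.H88

open ModularCurve Polynomial IntermediateField Fermat.Agent.S28 Fermat.Agent.S37 AlgebraicCurve

section Swap

variable {L : Type*} [Field L] [Algebra ℚ L] {N ℓ : ℕ} [NeZero N] [NeZero ℓ]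

/-- every generator `j(q^d)`, `d ∣ Nℓ`, of `F_{Nℓ}` lies in `α F_N` or in `β F_N` -/
theorem gd_eq_alpha_or_beta (hℓ : ℓ.Prime) {d : ℕ} [NeZero d] (hd : d ∣ N * ℓ) :
    ∃ a : laurentBaseChange L (modularFunctionFieldFull N),
      ((heckeAlphaBar L N ℓ a : laurentBaseChange L (modularFunctionFieldFull (N * ℓ))) :
        LaurentSeries L) = gd L d ∨
      ((heckeBetaBar L N ℓ a : laurentBaseChange L (modularFunctionFieldFull (N * ℓ))) :
        LaurentSeries L) = gd L d := by
  by_cases hℓd : ℓ ∣ d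
  · obtain ⟨d', rfl⟩ := hℓd
    have hd' : d' ∣ N := by
      rw [mul_comm N ℓ] at hd
      exact Nat.dvd_of_mul_dvd_mul_left hℓ.pos hd
    haveI : NeZero d' := ⟨fun h => by subst h; exact (NeZero.ne (ℓ * 0)) (mul_zero ℓ)⟩
    refine ⟨⟨gd L d', (FB_eq L N).ge (jd_mem_fullC L hd')⟩, Or.inr ?_⟩
    rw [coe_heckeBetaBar]
    show qExpand L ℓ (qExpand L d' (jqModC L)) = qExpand L (ℓ * d') (jqModC L)
    rw [qExpand_qExpand]
  · have hd' : d ∣ N :=
      (Nat.Coprime.dvd_of_dvd_mul_right
        ((Nat.coprime_comm.mp ((Nat.Prime.coprime_iff_not_dvd hℓ).mpr hℓd))) hd)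
    refine ⟨⟨gd L d, (FB_eq L N).ge (jd_mem_fullC L hd')⟩, Or.inl ?_⟩
    rw [coe_heckeAlphaBar]

/-- the last embedding takes values in `V(F_{Nℓ})` -/
theorem lastEmbedding_mem (hℓ : ℓ.Prime)
    (τ : laurentBaseChange L (modularFunctionFieldFull (N * ℓ)) →+* LaurentSeries L)
    (hτβ : ∀ a : laurentBaseChange L (modularFunctionFieldFull N),
      τ (heckeBetaBar L N ℓ a) = qExpand L ℓ (a : LaurentSeries L))
    (hτα : ∀ a : laurentBaseChange L (modularFunctionFieldFull N),
      τ (heckeAlphaBar L N ℓ a) = qExpand L ℓ (qExpand L ℓ (a : LaurentSeries L)))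
    (x : laurentBaseChange L (modularFunctionFieldFull (N * ℓ))) :
    ∃ z : laurentBaseChange L (modularFunctionFieldFull (N * ℓ)),
      qExpand L ℓ (z : LaurentSeries L) = τ x := by
  obtain ⟨x, hx⟩ := x
  have hx' : x ∈ modularFunctionFieldFullC L (N * ℓ) := (FB_eq L (N * ℓ)).le hx
  have key : ∀ (y : LaurentSeries L) (hy : y ∈ modularFunctionFieldFullC L (N * ℓ)),
      ∃ z : laurentBaseChange L (modularFunctionFieldFull (N * ℓ)),
        qExpand L ℓ (z : LaurentSeries L) = τ ⟨y, (FB_eq L (N * ℓ)).ge hy⟩ := by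
    intro y hy
    induction hy using IntermediateField.adjoin_induction with
    | mem y hy =>
      obtain ⟨d, hd0, hd, rfl⟩ := hy
      obtain ⟨a, ha | ha⟩ := gd_eq_alpha_or_beta (L := L) hℓ hd
      · refine ⟨heckeBetaBar L N ℓ a, ?_⟩
        have h1 : (⟨qExpand L d (jqModC L), (FB_eq L (N * ℓ)).ge
            (subset_adjoin L _ ⟨d, hd0, hd, rfl⟩)⟩ :
            laurentBaseChange L (modularFunctionFieldFull (N * ℓ))) = heckeAlphaBar L N ℓ a :=
          Subtype.ext ha.symm
        rw [h1, hτα, coe_heckeBetaBar]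
      · refine ⟨heckeAlphaBar L N ℓ a, ?_⟩
        have h1 : (⟨qExpand L d (jqModC L), (FB_eq L (N * ℓ)).ge
            (subset_adjoin L _ ⟨d, hd0, hd, rfl⟩)⟩ :
            laurentBaseChange L (modularFunctionFieldFull (N * ℓ))) = heckeBetaBar L N ℓ a :=
          Subtype.ext ha.symm
        rw [h1, hτβ, coe_heckeAlphaBar]
    | algebraMap c =>
      refine ⟨algebraMap L _ c, ?_⟩
      have h1 : (⟨algebraMap L (LaurentSeries L) c, (FB_eq L (N * ℓ)).ge
          (IntermediateField.algebraMap_mem _ c)⟩ :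
          laurentBaseChange L (modularFunctionFieldFull (N * ℓ))) = algebraMap L _ c :=
        Subtype.ext rfl
      rw [h1]
      have h2 : τ (algebraMap L _ c) = algebraMap L (LaurentSeries L) c := by
        have h3 : (algebraMap L (laurentBaseChange L (modularFunctionFieldFull (N * ℓ))) c) =
            heckeBetaBar L N ℓ (algebraMap L _ c) := ((heckeBetaBar L N ℓ).commutes c).symm
        rw [h3, hτβ]
        show qExpand L ℓ (algebraMap L (LaurentSeries L) c) = _
        rw [← qExpandAlgHomC_apply, AlgHom.commutes]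
      rw [h2]
      show qExpand L ℓ (algebraMap L (LaurentSeries L) c) = _
      rw [← qExpandAlgHomC_apply, AlgHom.commutes]
    | add y y' hy hy' ih ih' =>
      obtain ⟨z, hz⟩ := ih
      obtain ⟨z', hz'⟩ := ih'
      refine ⟨z + z', ?_⟩
      have h1 : (⟨y + y', (FB_eq L (N * ℓ)).ge (add_mem hy hy')⟩ :
          laurentBaseChange L (modularFunctionFieldFull (N * ℓ))) =
          ⟨y, (FB_eq L (N * ℓ)).ge hy⟩ + ⟨y', (FB_eq L (N * ℓ)).ge hy'⟩ := Subtype.ext rfl
      rw [h1, map_add, ← hz, ← hz', IntermediateField.coe_add, map_add]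
    | inv y hy ih =>
      obtain ⟨z, hz⟩ := ih
      refine ⟨z⁻¹, ?_⟩
      have h1 : (⟨y⁻¹, (FB_eq L (N * ℓ)).ge (inv_mem hy)⟩ :
          laurentBaseChange L (modularFunctionFieldFull (N * ℓ))) =
          (⟨y, (FB_eq L (N * ℓ)).ge hy⟩ :
            laurentBaseChange L (modularFunctionFieldFull (N * ℓ)))⁻¹ := Subtype.ext rfl
      rw [h1, map_inv₀, ← hz, IntermediateField.coe_inv, map_inv₀]
    | mul y y' hy hy' ih ih' =>
      obtain ⟨z, hz⟩ := ih
      obtain ⟨z', hz'⟩ := ih'
      refine ⟨z * z', ?_⟩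
      have h1 : (⟨y * y', (FB_eq L (N * ℓ)).ge (mul_mem hy hy')⟩ :
          laurentBaseChange L (modularFunctionFieldFull (N * ℓ))) =
          ⟨y, (FB_eq L (N * ℓ)).ge hy⟩ * ⟨y', (FB_eq L (N * ℓ)).ge hy'⟩ := Subtype.ext rfl
      rw [h1, map_mul, ← hz, ← hz', IntermediateField.coe_mul, map_mul]
  exact key x hx'

theorem eq_of_qExpand_eq {M : ℕ}
    {z z' : laurentBaseChange L (modularFunctionFieldFull M)}
    (h : qExpand L ℓ (z : LaurentSeries L) = qExpand L ℓ (z' : LaurentSeries L)) : z = z' :=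
  Subtype.ext (qExpand_injective ℓ h)

/-- the swap `w = V⁻¹ ∘ τ` attached to a last embedding `τ` -/
def swapOfTau (hℓ : ℓ.Prime)
    (τ : laurentBaseChange L (modularFunctionFieldFull (N * ℓ)) →+* LaurentSeries L)
    (hτβ : ∀ a : laurentBaseChange L (modularFunctionFieldFull N),
      τ (heckeBetaBar L N ℓ a) = qExpand L ℓ (a : LaurentSeries L))
    (hτα : ∀ a : laurentBaseChange L (modularFunctionFieldFull N),
      τ (heckeAlphaBar L N ℓ a) = qExpand L ℓ (qExpand L ℓ (a : LaurentSeries L))) :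
    laurentBaseChange L (modularFunctionFieldFull (N * ℓ)) →+*
      laurentBaseChange L (modularFunctionFieldFull (N * ℓ)) where
  toFun x := Classical.choose (lastEmbedding_mem hℓ τ hτβ hτα x)
  map_one' := by
    apply eq_of_qExpand_eq (ℓ := ℓ)
    rw [Classical.choose_spec (lastEmbedding_mem hℓ τ hτβ hτα 1), map_one,
      IntermediateField.coe_one, map_one]
  map_mul' x y := by
    apply eq_of_qExpand_eq (ℓ := ℓ)
    rw [Classical.choose_spec (lastEmbedding_mem hℓ τ hτβ hτα (x * y)), map_mul,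
      IntermediateField.coe_mul, map_mul,
      Classical.choose_spec (lastEmbedding_mem hℓ τ hτβ hτα x),
      Classical.choose_spec (lastEmbedding_mem hℓ τ hτβ hτα y)]
  map_zero' := by
    apply eq_of_qExpand_eq (ℓ := ℓ)
    rw [Classical.choose_spec (lastEmbedding_mem hℓ τ hτβ hτα 0), map_zero,
      IntermediateField.coe_zero, map_zero]
  map_add' x y := by
    apply eq_of_qExpand_eq (ℓ := ℓ)
    rw [Classical.choose_spec (lastEmbedding_mem hℓ τ hτβ hτα (x + y)), map_add,
      IntermediateField.coe_add, map_add,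
      Classical.choose_spec (lastEmbedding_mem hℓ τ hτβ hτα x),
      Classical.choose_spec (lastEmbedding_mem hℓ τ hτβ hτα y)]

theorem swapOfTau_spec (hℓ : ℓ.Prime)
    (τ : laurentBaseChange L (modularFunctionFieldFull (N * ℓ)) →+* LaurentSeries L)
    (hτβ : ∀ a : laurentBaseChange L (modularFunctionFieldFull N),
      τ (heckeBetaBar L N ℓ a) = qExpand L ℓ (a : LaurentSeries L))
    (hτα : ∀ a : laurentBaseChange L (modularFunctionFieldFull N),
      τ (heckeAlphaBar L N ℓ a) = qExpand L ℓ (qExpand L ℓ (a : LaurentSeries L)))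
    (x : laurentBaseChange L (modularFunctionFieldFull (N * ℓ))) :
    qExpand L ℓ ((swapOfTau hℓ τ hτβ hτα x : laurentBaseChange L
      (modularFunctionFieldFull (N * ℓ))) : LaurentSeries L) = τ x :=
  Classical.choose_spec (lastEmbedding_mem hℓ τ hτβ hτα x)

/-- **The Atkin–Lehner swap.**  There is a ring endomorphism `w` of `F_{Nℓ}` with
`w ∘ α = β` and `w ∘ β = α`. -/
theorem exists_swap (hℓ : ℓ.Prime) (hℓN : ¬ ℓ ∣ N) {ζ : L} (hζ : IsPrimitiveRoot ζ ℓ) :
    ∃ w : laurentBaseChange L (modularFunctionFieldFull (N * ℓ)) →+*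
        laurentBaseChange L (modularFunctionFieldFull (N * ℓ)),
      (∀ a : laurentBaseChange L (modularFunctionFieldFull N),
        w (heckeAlphaBar L N ℓ a) = heckeBetaBar L N ℓ a) ∧
      (∀ a : laurentBaseChange L (modularFunctionFieldFull N),
        w (heckeBetaBar L N ℓ a) = heckeAlphaBar L N ℓ a) := by
  obtain ⟨τ, hτβ, hτα⟩ := exists_lastEmbedding (L := L) (N := N) hℓ hℓN hζ
  refine ⟨swapOfTau hℓ τ hτβ hτα, fun a => ?_, fun a => ?_⟩
  · apply eq_of_qExpand_eq (ℓ := ℓ)
    rw [swapOfTau_spec, hτα, coe_heckeBetaBar]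
  · apply eq_of_qExpand_eq (ℓ := ℓ)
    rw [swapOfTau_spec, hτβ, coe_heckeAlphaBar]

end Swap

section AlphaSide

variable {L : Type*} [Field L] [Algebra ℚ L] {N ℓ : ℕ} [NeZero N] [NeZero ℓ]

/-- `[F_{Nℓ} : α F_N] = ℓ + 1` for `ℓ ∤ N` (any field `L` of characteristic `0`). -/
theorem finrankAlong_heckeAlphaBar' (hℓ : ℓ.Prime) (hℓN : ¬ ℓ ∣ N) :
    finrankAlong L (heckeAlphaBar L N ℓ) = ℓ + 1 := by
  have h1 : finrankAlong L (heckeAlphaBar L N ℓ) =
      (laurentBaseChange L (modularFunctionFieldFull N)).relfinrank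
        (laurentBaseChange L (modularFunctionFieldFull (N * ℓ))) :=
    Fermat.Agent.Lib.X0Deg.finrankAlong_inclusion _
  rw [h1, FB_eq, FB_eq, H988.relfinrank_full_mul_prime L N ℓ (NeZero.ne N) hℓ
    (fun r hr _ => natCast_ne_zero_of_algebraRat L hr.ne_zero), if_neg hℓN]

theorem finiteAlong_heckeAlphaBar' (hℓ : ℓ.Prime) (hℓN : ¬ ℓ ∣ N) :
    FiniteAlong L (heckeAlphaBar L N ℓ) := by
  have h := finrankAlong_heckeAlphaBar' (L := L) hℓ hℓN
  unfold finrankAlong at h
  unfold FiniteAlong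
  letI := algebraAlong (heckeAlphaBar L N ℓ)
  exact FiniteDimensional.of_finrank_pos (by rw [h]; omega)

theorem sigmaFam_eq_of_apply_eq (hℓ : ℓ.Prime) {ζ : L} (hζ : IsPrimitiveRoot ζ ℓ)
    (τ : laurentBaseChange L (modularFunctionFieldFull (N * ℓ)) →+* LaurentSeries L)
    (hτα : ∀ a : laurentBaseChange L (modularFunctionFieldFull N),
      τ (heckeAlphaBar L N ℓ a) = qExpand L ℓ (qExpand L ℓ (a : LaurentSeries L)))
    {i i' : Option (Fin ℓ)}
    (hj : sigmaFam hζ.pow_eq_one τ i (heckeAlphaBar L N ℓ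
        ⟨gd L 1, (FB_eq L N).ge (jd_mem_fullC L (one_dvd N))⟩) =
      sigmaFam hζ.pow_eq_one τ i' (heckeAlphaBar L N ℓ
        ⟨gd L 1, (FB_eq L N).ge (jd_mem_fullC L (one_dvd N))⟩)) : i = i' := by
  have hℓ1 : ¬ ℓ ∣ 1 := fun h => hℓ.one_lt.ne' (Nat.dvd_one.mp h)
  have hj1 : ((heckeAlphaBar L N ℓ (⟨gd L 1, (FB_eq L N).ge (jd_mem_fullC L (one_dvd N))⟩ :
      laurentBaseChange L (modularFunctionFieldFull N)) :
      laurentBaseChange L (modularFunctionFieldFull (N * ℓ))) :
      LaurentSeries L) = gd L 1 := coe_heckeAlphaBar N ℓ _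
  cases i with
  | none =>
    cases i' with
    | none => rfl
    | some b' =>
      rw [sigmaFam_none, sigmaFam_some, hτα, hj1] at hj
      exact absurd hj (qExpand_qExpand_gd_ne_tw hζ hℓ hℓ1 b')
  | some b =>
    cases i' with
    | none =>
      rw [sigmaFam_none, sigmaFam_some, hτα, hj1] at hj
      exact absurd hj.symm (qExpand_qExpand_gd_ne_tw hζ hℓ hℓ1 b)
    | some b' =>
      rw [sigmaFam_some, sigmaFam_some, hj1] at hj
      exact congrArg some (tw_gd_injective hζ hℓ hℓ1 hj)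

/-- **Characteristic polynomial along `α`** of `β y`, read in `L((q))`, is the Kronecker
polynomial `Ψ_y = (X - y(q^ℓ)) ∏_b (X - y(ζ^b q^{1/ℓ}))`. -/
theorem charpoly_alpha_beta (hℓ : ℓ.Prime) (hℓN : ¬ ℓ ∣ N) {ζ : L} (hζ : IsPrimitiveRoot ζ ℓ)
    (y : laurentBaseChange L (modularFunctionFieldFull N)) :
    letI := algebraAlong (heckeAlphaBar L N ℓ)
    haveI : Module.Finite (laurentBaseChange L (modularFunctionFieldFull N))
      (laurentBaseChange L (modularFunctionFieldFull (N * ℓ))) :=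
      finiteAlong_heckeAlphaBar' hℓ hℓN
    ((Algebra.lmul (laurentBaseChange L (modularFunctionFieldFull N)) _
        (heckeBetaBar L N ℓ y)).charpoly).map
        (algebraMap (laurentBaseChange L (modularFunctionFieldFull N)) (LaurentSeries L)) =
      H400.kronPoly ℓ (y : LaurentSeries L) := by
  classical
  obtain ⟨τ, hτβ, hτα⟩ := exists_lastEmbedding (L := L) (N := N) hℓ hℓN hζ
  set w := swapOfTau hℓ τ hτβ hτα with hw
  have hwα : ∀ a : laurentBaseChange L (modularFunctionFieldFull N),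
      w (heckeAlphaBar L N ℓ a) = heckeBetaBar L N ℓ a := by
    intro a
    apply eq_of_qExpand_eq (ℓ := ℓ)
    rw [hw, swapOfTau_spec, hτα, coe_heckeBetaBar]
  have hwβ : ∀ a : laurentBaseChange L (modularFunctionFieldFull N),
      w (heckeBetaBar L N ℓ a) = heckeAlphaBar L N ℓ a := by
    intro a
    apply eq_of_qExpand_eq (ℓ := ℓ)
    rw [hw, swapOfTau_spec, hτβ, coe_heckeAlphaBar]
  letI := algebraAlong (heckeAlphaBar L N ℓ)
  haveI : Module.Finite (laurentBaseChange L (modularFunctionFieldFull N))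
      (laurentBaseChange L (modularFunctionFieldFull (N * ℓ))) :=
    finiteAlong_heckeAlphaBar' hℓ hℓN
  have hcard : Module.finrank (laurentBaseChange L (modularFunctionFieldFull N))
      (laurentBaseChange L (modularFunctionFieldFull (N * ℓ))) =
      Fintype.card (Option (Fin ℓ)) := by
    rw [Fintype.card_option, Fintype.card_fin]
    exact finrankAlong_heckeAlphaBar' hℓ hℓN
  have hσ : ∀ (i : Option (Fin ℓ)) (a : laurentBaseChange L (modularFunctionFieldFull N)),
      ((sigmaFam hζ.pow_eq_one τ i).comp w) (heckeAlphaBar L N ℓ a) =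
        ((qExpand L ℓ).comp (algebraMap (laurentBaseChange L (modularFunctionFieldFull N))
          (LaurentSeries L))) a := by
    intro i a
    rw [RingHom.comp_apply, hwα]
    exact sigmaFam_algebraMap hζ.pow_eq_one τ hτβ i a
  have hinj : Function.Injective (fun i : Option (Fin ℓ) =>
      (sigmaFam hζ.pow_eq_one τ i).comp w) := by
    intro i i' h
    have h1 := congrArg (fun f : laurentBaseChange L (modularFunctionFieldFull (N * ℓ)) →+*
      LaurentSeries L => f (heckeBetaBar L N ℓ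
        ⟨gd L 1, (FB_eq L N).ge (jd_mem_fullC L (one_dvd N))⟩)) h
    simp only [RingHom.comp_apply, hwβ] at h1
    exact sigmaFam_eq_of_apply_eq hℓ hζ τ hτα h1
  have h := charpoly_map_eq_prod_embeddings
    ((qExpand L ℓ).comp (algebraMap (laurentBaseChange L (modularFunctionFieldFull N))
        (LaurentSeries L))) (fun i : Option (Fin ℓ) => (sigmaFam hζ.pow_eq_one τ i).comp w)
    hσ hinj hcard (heckeBetaBar L N ℓ y)
  simp only [RingHom.comp_apply, hwβ] at h
  rw [Fintype.prod_option, sigmaFam_none, hτα] at h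
  simp only [sigmaFam_some, coe_heckeAlphaBar] at h
  rw [← kronPoly_map_qExpand ℓ hζ, ← Polynomial.map_map] at h
  exact Polynomial.map_injective _ (qExpand_injective ℓ) h

/-- **NORM-ID.** `Nm_α(β y) = y(q^ℓ) · ∏_b y(ζ^b q^{1/ℓ})` (`H400.kronNorm ℓ y`). -/
theorem norm_alpha_beta (hℓ : ℓ.Prime) (hℓN : ¬ ℓ ∣ N) {ζ : L} (hζ : IsPrimitiveRoot ζ ℓ)
    (y : laurentBaseChange L (modularFunctionFieldFull N)) :
    letI := algebraAlong (heckeAlphaBar L N ℓ)
    ((Algebra.norm (laurentBaseChange L (modularFunctionFieldFull N))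
        (heckeBetaBar L N ℓ y) : laurentBaseChange L (modularFunctionFieldFull N)) :
        LaurentSeries L) = H400.kronNorm ℓ (y : LaurentSeries L) := by
  letI := algebraAlong (heckeAlphaBar L N ℓ)
  haveI : Module.Finite (laurentBaseChange L (modularFunctionFieldFull N))
      (laurentBaseChange L (modularFunctionFieldFull (N * ℓ))) :=
    finiteAlong_heckeAlphaBar' hℓ hℓN
  have h := charpoly_alpha_beta hℓ hℓN hζ y
  have h0 := congrArg (fun p : Polynomial (LaurentSeries L) => p.coeff 0) h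
  simp only [Polynomial.coeff_map, IntermediateField.algebraMap_apply] at h0
  have hfr : Module.finrank (laurentBaseChange L (modularFunctionFieldFull N))
      (laurentBaseChange L (modularFunctionFieldFull (N * ℓ))) = ℓ + 1 :=
    finrankAlong_heckeAlphaBar' hℓ hℓN
  rw [Algebra.norm_apply, LinearMap.det_eq_sign_charpoly_coeff, hfr, IntermediateField.coe_mul,
    IntermediateField.coe_pow, IntermediateField.coe_neg, IntermediateField.coe_one, h0,
    H400.kronPoly_coeff_zero, ← mul_assoc, ← mul_pow]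
  simp

section Bar

/-- **The Atkin–Lehner swap over `ℚ̄`.** -/
theorem exists_swap_bar (hℓ : ℓ.Prime) (hℓN : ¬ ℓ ∣ N) :
    ∃ w : modularFunctionFieldBar (N * ℓ) →+* modularFunctionFieldBar (N * ℓ),
      (∀ a : modularFunctionFieldBar N,
        w (heckeAlphaBar (AlgebraicClosure ℚ) N ℓ a) = heckeBetaBar (AlgebraicClosure ℚ) N ℓ a) ∧
      (∀ a : modularFunctionFieldBar N,
        w (heckeBetaBar (AlgebraicClosure ℚ) N ℓ a) = heckeAlphaBar (AlgebraicClosure ℚ) N ℓ a) := by
  obtain ⟨ζ, hζ⟩ := exists_primitiveRoot_bar ℓ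
  exact exists_swap hℓ hℓN hζ

/-- **Characteristic polynomial along `α` over `ℚ̄`.** -/
theorem charpoly_alpha_beta_bar (hℓ : ℓ.Prime) (hℓN : ¬ ℓ ∣ N) (y : modularFunctionFieldBar N) :
    letI := algebraAlong (heckeAlphaBar (AlgebraicClosure ℚ) N ℓ)
    haveI : Module.Finite (modularFunctionFieldBar N) (modularFunctionFieldBar (N * ℓ)) :=
      finiteAlong_heckeAlphaBar' hℓ hℓN
    ((Algebra.lmul (modularFunctionFieldBar N) (modularFunctionFieldBar (N * ℓ))
        (heckeBetaBar (AlgebraicClosure ℚ) N ℓ y)).charpoly).map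
        (algebraMap (modularFunctionFieldBar N) (LaurentSeries (AlgebraicClosure ℚ))) =
      H400.kronPoly ℓ (y : LaurentSeries (AlgebraicClosure ℚ)) := by
  obtain ⟨ζ, hζ⟩ := exists_primitiveRoot_bar ℓ
  exact charpoly_alpha_beta hℓ hℓN hζ y

/-- **NORM-ID over `ℚ̄`**: the q-expansion of `Nm_α(β y)` is `H400.kronNorm ℓ y`. -/
theorem norm_alpha_beta_bar (hℓ : ℓ.Prime) (hℓN : ¬ ℓ ∣ N) (y : modularFunctionFieldBar N) :
    letI := algebraAlong (heckeAlphaBar (AlgebraicClosure ℚ) N ℓ)
    ((Algebra.norm (modularFunctionFieldBar N)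
        (heckeBetaBar (AlgebraicClosure ℚ) N ℓ y) : modularFunctionFieldBar N) :
        LaurentSeries (AlgebraicClosure ℚ)) =
      H400.kronNorm ℓ (y : LaurentSeries (AlgebraicClosure ℚ)) := by
  obtain ⟨ζ, hζ⟩ := exists_primitiveRoot_bar ℓ
  exact norm_alpha_beta hℓ hℓN hζ y

end Bar

end AlphaSide

end Fermat.Agent.S37.H88
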